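/-
Program V (S27), half B, leaf (C3b) INSTANCE, stage 1: points of the table ring `V27pB T`.
Owner: helper15.  Prefix `v27pi_`.  On helper26's `V/Pres/{Defs,Ring}.lean` only.

* a point `(x0, ε)` with the point equations `V27piPtEq` is a `K`-algebra hom `V27pB T →ₐ[K] K`
  (`v27piPoint`), and every `K`-algebra hom is of this form (`v27pi_point_eq`);
* the kernel of a point is generated by `x - x0`, `e j - ε j` (`v27pi_ker_eq_span`);
* finiteness facts, and the generator form of (P3) ⟹ `V27ptP3` ⟹ Dedekind.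
-/
import Mathlib
import Fermat.Agent.V.Pres.Ring
import Fermat.Agent.V.Pts.Dvr

set_option autoImplicit false
set_option linter.style.haveILetI false
set_option linter.unusedSectionVars false

noncomputable section

namespace Fermat.Agent.V

open Polynomial

variable {K : Type*} [Field K] {δ : V27pShape} (T : V27pTable K δ)

/-! ### the `K`-module structure in coordinates -/

theorem v27pi_smul_apply (c : K) (b : V27pB T) (k : ZMod δ.N) : (c • b) k = C c * b k := rfl

/-- Formal evaluation at `(x0, ε)`. -/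
def v27piEv (x0 : K) (ε : ZMod δ.N → K) : V27pB T →ₗ[K] K where
  toFun b := ∑ j, (b j).eval x0 * ε j
  map_add' a b := by
    simp only [V27pB.add_apply, eval_add, add_mul, Finset.sum_add_distrib]
  map_smul' c b := by
    simp only [v27pi_smul_apply, eval_mul, eval_C, RingHom.id_apply, smul_eq_mul, Finset.mul_sum,
      mul_assoc]

theorem v27piEv_apply (x0 : K) (ε : ZMod δ.N → K) (b : V27pB T) :
    v27piEv T x0 ε b = ∑ j, (b j).eval x0 * ε j := rfl

/-- The point equations. -/
def V27piPtEq (x0 : K) (ε : ZMod δ.N → K) : Prop :=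
  ε 0 = 1 ∧ ∀ i j, ε i * ε j = ∑ k, (T.c i j k).eval x0 * ε k

variable {T}

theorem v27piEv_one {x0 : K} {ε : ZMod δ.N → K} (h : V27piPtEq T x0 ε) :
    v27piEv T x0 ε 1 = 1 := by
  rw [v27piEv_apply, Finset.sum_eq_single (0 : ZMod δ.N)]
  · simp [V27pB.one_apply, h.1]
  · intro j _ hj
    simp [V27pB.one_apply, hj]
  · intro h0
    exact absurd (Finset.mem_univ _) h0

theorem v27piEv_mul {x0 : K} {ε : ZMod δ.N → K} (h : V27piPtEq T x0 ε) (a b : V27pB T) :
    v27piEv T x0 ε (a * b) = v27piEv T x0 ε a * v27piEv T x0 ε b := by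
  simp only [v27piEv_apply, V27pB.mul_apply, eval_finsetSum, eval_mul]
  rw [Finset.sum_mul_sum]
  -- LHS : Σ_k (Σ_i Σ_j a_i b_j c_ijk) ε_k
  have hL : ∑ k, (∑ i, ∑ j, eval x0 (a i) * eval x0 (b j) * eval x0 (T.c i j k)) * ε k
      = ∑ i, ∑ j, eval x0 (a i) * eval x0 (b j) * ∑ k, eval x0 (T.c i j k) * ε k := by
    simp only [Finset.sum_mul, Finset.mul_sum]
    rw [Finset.sum_comm]
    apply Finset.sum_congr rfl; intro i _
    rw [Finset.sum_comm]
    apply Finset.sum_congr rfl; intro j _
    apply Finset.sum_congr rfl; intro k _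
    ring
  rw [hL]
  apply Finset.sum_congr rfl; intro i _
  apply Finset.sum_congr rfl; intro j _
  rw [← h.2 i j]
  ring

theorem v27piEv_algebraMap {x0 : K} {ε : ZMod δ.N → K} (h : V27piPtEq T x0 ε) (c : K) :
    v27piEv T x0 ε (algebraMap K (V27pB T) c) = c := by
  rw [Algebra.algebraMap_eq_smul_one, map_smul, v27piEv_one h, smul_eq_mul, mul_one]

/-- **The point `(x0, ε)` as a `K`-algebra hom.** -/
def v27piPoint (x0 : K) (ε : ZMod δ.N → K) (h : V27piPtEq T x0 ε) : V27pB T →ₐ[K] K where
  toFun := v27piEv T x0 ε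
  map_one' := v27piEv_one h
  map_mul' := v27piEv_mul h
  map_zero' := map_zero _
  map_add' := map_add _
  commutes' := v27piEv_algebraMap h

theorem v27piPoint_eq_ev (x0 : K) (ε : ZMod δ.N → K) (h : V27piPtEq T x0 ε) (b : V27pB T) :
    v27piPoint x0 ε h b = v27piEv T x0 ε b := rfl

@[simp]
theorem v27piPoint_apply (x0 : K) (ε : ZMod δ.N → K) (h : V27piPtEq T x0 ε) (b : V27pB T) :
    v27piPoint x0 ε h b = ∑ j, (b j).eval x0 * ε j := rfl

theorem v27piEv_x (x0 : K) (ε : ZMod δ.N → K) (h0 : ε 0 = 1) :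
    v27piEv T x0 ε (V27pB.x (T := T)) = x0 := by
  rw [v27piEv_apply, Finset.sum_eq_single (0 : ZMod δ.N)]
  · simp [V27pB.x, V27pB.algebraMap_poly_apply, h0]
  · intro j _ hj
    simp [V27pB.x, V27pB.algebraMap_poly_apply, hj]
  · intro h
    exact absurd (Finset.mem_univ _) h

theorem v27piEv_e (x0 : K) (ε : ZMod δ.N → K) (j : ZMod δ.N) :
    v27piEv T x0 ε (V27pB.e (T := T) j) = ε j := by
  rw [v27piEv_apply, Finset.sum_eq_single j]
  · simp [V27pB.e_apply]
  · intro k _ hk
    simp [V27pB.e_apply, hk]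
  · intro h
    exact absurd (Finset.mem_univ _) h

/-! ### every `K`-algebra hom is a point -/

theorem v27pi_algebraMap_poly_eq_aeval (p : K[X]) :
    algebraMap K[X] (V27pB T) p = aeval (V27pB.x (T := T)) p := by
  unfold V27pB.x
  rw [aeval_algebraMap_apply, aeval_X_left_apply]

theorem v27pi_point_algebraMap_poly (q : V27pB T →ₐ[K] K) (p : K[X]) :
    q (algebraMap K[X] (V27pB T) p) = p.eval (q (V27pB.x (T := T))) := by
  rw [v27pi_algebraMap_poly_eq_aeval, ← aeval_algHom_apply, ← coe_aeval_eq_eval]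

theorem v27pi_point_apply (q : V27pB T →ₐ[K] K) (b : V27pB T) :
    q b = ∑ j, (b j).eval (q (V27pB.x (T := T))) * q (V27pB.e (T := T) j) := by
  conv_lhs => rw [V27pB.eq_sum_smul_e b]
  rw [map_sum]
  apply Finset.sum_congr rfl
  intro j _
  rw [Algebra.smul_def, map_mul, v27pi_point_algebraMap_poly]

theorem v27pi_ptEq_of_point (q : V27pB T →ₐ[K] K) :
    V27piPtEq T (q (V27pB.x (T := T))) (fun j => q (V27pB.e (T := T) j)) := by
  refine ⟨?_, fun i j => ?_⟩
  · show q (V27pB.e (T := T) 0) = 1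
    rw [V27pB.e_zero, map_one]
  · show q (V27pB.e (T := T) i) * q (V27pB.e (T := T) j) = _
    rw [← map_mul, v27pi_point_apply q (V27pB.e i * V27pB.e j)]
    apply Finset.sum_congr rfl
    intro k _
    rw [V27pB.e_mul_e_apply]

/-- Every `K`-algebra hom `V27pB T → K` is the point of its coordinates. -/
theorem v27pi_point_eq (q : V27pB T →ₐ[K] K) :
    q = v27piPoint (q (V27pB.x (T := T))) (fun j => q (V27pB.e (T := T) j))
      (v27pi_ptEq_of_point q) := by
  apply AlgHom.ext
  intro b
  rw [v27piPoint_apply]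
  exact v27pi_point_apply q b

theorem v27piPoint_x (x0 : K) (ε : ZMod δ.N → K) (h : V27piPtEq T x0 ε) :
    v27piPoint x0 ε h (V27pB.x (T := T)) = x0 := v27piEv_x x0 ε h.1

theorem v27piPoint_e (x0 : K) (ε : ZMod δ.N → K) (h : V27piPtEq T x0 ε) (j : ZMod δ.N) :
    v27piPoint x0 ε h (V27pB.e (T := T) j) = ε j := v27piEv_e x0 ε j

/-- Points are determined by their coordinates. -/
theorem v27pi_point_ext {q q' : V27pB T →ₐ[K] K}
    (hx : q (V27pB.x (T := T)) = q' (V27pB.x (T := T)))
    (he : ∀ j, q (V27pB.e (T := T) j) = q' (V27pB.e (T := T) j)) : q = q' := by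
  apply AlgHom.ext
  intro b
  rw [v27pi_point_apply q b, v27pi_point_apply q' b, hx]
  apply Finset.sum_congr rfl
  intro j _
  rw [he j]

/-! ### generators of the kernel of a point -/

/-- the standard generators of the maximal ideal of a point -/
def v27piGens (q : V27pB T →ₐ[K] K) : Set (V27pB T) :=
  {V27pB.x (T := T) - algebraMap K (V27pB T) (q (V27pB.x (T := T)))} ∪
    Set.range fun j => V27pB.e (T := T) j - algebraMap K (V27pB T) (q (V27pB.e (T := T) j))

theorem v27pi_sub_mem_span (q : V27pB T →ₐ[K] K) (b : V27pB T) :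
    b - algebraMap K (V27pB T) (q b) ∈ Ideal.span (v27piGens q) := by
  set I := Ideal.span (v27piGens q) with hI
  rw [← Ideal.Quotient.eq]
  have hx : Ideal.Quotient.mk I (V27pB.x (T := T))
      = Ideal.Quotient.mk I (algebraMap K (V27pB T) (q (V27pB.x (T := T)))) := by
    rw [Ideal.Quotient.eq]
    exact Ideal.subset_span (Or.inl rfl)
  have he : ∀ j, Ideal.Quotient.mk I (V27pB.e (T := T) j)
      = Ideal.Quotient.mk I (algebraMap K (V27pB T) (q (V27pB.e (T := T) j))) := by
    intro j
    rw [Ideal.Quotient.eq]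
    exact Ideal.subset_span (Or.inr ⟨j, rfl⟩)
  have hp : ∀ p : K[X], Ideal.Quotient.mk I (algebraMap K[X] (V27pB T) p)
      = Ideal.Quotient.mk I (algebraMap K (V27pB T) (p.eval (q (V27pB.x (T := T))))) := by
    intro p
    rw [v27pi_algebraMap_poly_eq_aeval]
    induction p using Polynomial.induction_on' with
    | add p r hp hr => rw [map_add, map_add, hp, hr, eval_add, map_add, map_add]
    | monomial n c =>
      rw [aeval_monomial, map_mul, map_pow, hx, eval_monomial, map_mul (algebraMap K (V27pB T)),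
        map_pow (algebraMap K (V27pB T)), map_mul (Ideal.Quotient.mk I),
        map_pow (Ideal.Quotient.mk I)]
  conv_lhs => rw [V27pB.eq_sum_smul_e b]
  rw [map_sum, v27pi_point_apply q b, map_sum, map_sum]
  apply Finset.sum_congr rfl
  intro j _
  rw [Algebra.smul_def, map_mul, hp, he, ← map_mul, ← map_mul]

/-- **(Pt2)** the kernel of a point is generated by `x - x0` and the `e j - ε j`. -/
theorem v27pi_ker_eq_span (q : V27pB T →ₐ[K] K) :
    Ideal.span (v27piGens q) = RingHom.ker q := by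
  apply le_antisymm
  · rw [Ideal.span_le]
    rintro b (hb | ⟨j, rfl⟩)
    · rw [Set.mem_singleton_iff] at hb
      rw [hb]
      exact v27pt_sub_mem_ker q _
    · exact v27pt_sub_mem_ker q _
  · intro b hb
    have h := v27pi_sub_mem_span q b
    rw [RingHom.mem_ker.mp hb, map_zero, sub_zero] at h
    exact h

/-! ### finiteness facts -/

instance v27pi_finiteType : Algebra.FiniteType K (V27pB T) :=
  Algebra.FiniteType.trans (inferInstance : Algebra.FiniteType K K[X]) inferInstance

instance v27pi_isIntegral : Algebra.IsIntegral K[X] (V27pB T) :=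
  Algebra.IsIntegral.of_finite K[X] (V27pB T)

theorem v27pi_algebraMap_poly_injective :
    Function.Injective (algebraMap K[X] (V27pB T)) := by
  intro p r h
  have := congrFun h (0 : ZMod δ.N)
  simpa [V27pB.algebraMap_poly_apply] using this

theorem v27pi_not_isField : ¬ IsField (V27pB T) := fun h =>
  Polynomial.not_isField K
    (isField_of_isIntegral_of_isField v27pi_algebraMap_poly_injective h)

theorem v27pi_dimensionLEOne [IsDomain (V27pB T)] : Ring.DimensionLEOne (V27pB T) :=
  v27pt_dimensionLEOne_of_isIntegral K[X]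

/-! ### (P3) in generator form -/

/-- helper24's `(P3)` for the ring `V27pB T`, quantified over `K`-algebra homs. -/
def V27piP3 (T : V27pTable K δ) : Prop :=
  ∀ q : V27pB T →ₐ[K] K, ∃ u s : V27pB T, q u = 0 ∧ q s ≠ 0 ∧
    (∃ h0 : V27pB T,
      s * (V27pB.x (T := T) - algebraMap K (V27pB T) (q (V27pB.x (T := T)))) = u * h0) ∧
    ∀ j, ∃ hj : V27pB T,
      s * (V27pB.e (T := T) j - algebraMap K (V27pB T) (q (V27pB.e (T := T) j))) = u * hj

/-- The same, quantified over coordinate points `(x0, ε)` satisfying the point equations. -/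
def V27piP3' (T : V27pTable K δ) : Prop :=
  ∀ (x0 : K) (ε : ZMod δ.N → K), V27piPtEq T x0 ε → ∃ u s : V27pB T,
    v27piEv T x0 ε u = 0 ∧ v27piEv T x0 ε s ≠ 0 ∧
    (∃ h0 : V27pB T, s * (V27pB.x (T := T) - algebraMap K (V27pB T) x0) = u * h0) ∧
    ∀ j, ∃ hj : V27pB T, s * (V27pB.e (T := T) j - algebraMap K (V27pB T) (ε j)) = u * hj

theorem v27pi_p3_of_p3' (h : V27piP3' T) : V27piP3 T := by
  intro q
  obtain ⟨u, s, hu, hs, h0, hj⟩ := h _ _ (v27pi_ptEq_of_point q)
  refine ⟨u, s, ?_, ?_, h0, hj⟩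
  · rw [v27pi_point_eq q, v27piPoint_eq_ev]
    exact hu
  · rw [v27pi_point_eq q, v27piPoint_eq_ev]
    exact hs

theorem v27pi_ptP3_of_p3 [IsDomain (V27pB T)] (h : V27piP3 T) : V27ptP3 K (V27pB T) := by
  intro q
  obtain ⟨u, s, hu, hs, h0, hj⟩ := h q
  refine ⟨u, s, hu, hs, fun b hb => ?_⟩
  refine v27pt_locally_principal_of_span (RingHom.ker q) (v27piGens q) (v27pi_ker_eq_span q) u s
    ?_ b (RingHom.mem_ker.mpr hb)
  rintro c (hc | ⟨j, rfl⟩)
  · rw [Set.mem_singleton_iff] at hc
    rw [hc]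
    exact h0
  · exact hj j

/-- **(P3) ⟹ the table ring is a Dedekind domain** (given that it is a domain: C3a). -/
theorem v27pi_isDedekindDomain [IsAlgClosed K] [IsDomain (V27pB T)] (h : V27piP3 T) :
    IsDedekindDomain (V27pB T) :=
  v27pt_isDedekindDomain (K := K) v27pi_dimensionLEOne (v27pi_ptP3_of_p3 h)

end Fermat.Agent.V
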