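/-
Program V (S27), half B, leaf (C3b) INSTANCE, stage 2a: the ring `Λ` of functions regular near
infinity of a one-point model, abstractly on helper4's `V27dpDeg K ρ` (V/Pres/DegPlace.lean):
`Λ = { b / x^r | b = 0 ∨ ρ b ≤ N r }`, `N = ρ x`.  We prove the hypotheses `hΛK hfrac hrad hres` of
`v27pt_le_of_inf` (V/Pts/Inf.lean); `hint` is reduced to a finite generation statement.
Owner: helper15.  Prefix `v27pi_`.
-/
import Mathlib
import Fermat.Agent.V.Pres.DegPlace
import Fermat.Agent.V.Pts.Places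

set_option autoImplicit false
set_option linter.style.haveILetI false
set_option linter.unusedSectionVars false

noncomputable section

namespace Fermat.Agent.V

open AlgebraicCurve WithZero

variable {K B : Type*} (M : Type*) [Field K] [CommRing B] [IsDomain B] [Algebra K B] [Field M]
  [Algebra B M] [IsFractionRing B M] [Algebra K M] [IsScalarTower K B M] {ρ : B → ℕ}

/-- `b = 0` or `ρ b ≤ m`. -/
def V27piLe (ρ : B → ℕ) (b : B) (m : ℕ) : Prop := b = 0 ∨ ρ b ≤ m

namespace V27piLe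

omit [IsDomain B] in
theorem zero (m : ℕ) : V27piLe ρ (0 : B) m := Or.inl rfl

omit [IsDomain B] in
theorem mono {b : B} {m m' : ℕ} (h : V27piLe ρ b m) (hm : m ≤ m') : V27piLe ρ b m' :=
  h.imp id fun h => h.trans hm

theorem add (h : V27dpDeg K ρ) {a b : B} {m : ℕ} (ha : V27piLe ρ a m) (hb : V27piLe ρ b m) :
    V27piLe ρ (a + b) m := by
  by_cases ha0 : a = 0
  · rwa [ha0, zero_add]
  by_cases hb0 : b = 0
  · rwa [hb0, add_zero]
  by_cases hab : a + b = 0
  · exact Or.inl hab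
  refine Or.inr ((h.add a b ha0 hb0 hab).trans (max_le ?_ ?_))
  · exact ha.resolve_left ha0
  · exact hb.resolve_left hb0

theorem neg (h : V27dpDeg K ρ) {a : B} {m : ℕ} (ha : V27piLe ρ a m) : V27piLe ρ (-a) m := by
  by_cases ha0 : a = 0
  · rw [ha0, neg_zero]; exact zero m
  · exact Or.inr ((h.neg ha0).le.trans (ha.resolve_left ha0))

theorem mul (h : V27dpDeg K ρ) {a b : B} {m n : ℕ} (ha : V27piLe ρ a m) (hb : V27piLe ρ b n) :
    V27piLe ρ (a * b) (m + n) := by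
  by_cases ha0 : a = 0
  · rw [ha0, zero_mul]; exact zero _
  by_cases hb0 : b = 0
  · rw [hb0, mul_zero]; exact zero _
  refine Or.inr ?_
  rw [h.mul a b ha0 hb0]
  exact Nat.add_le_add (ha.resolve_left ha0) (hb.resolve_left hb0)

end V27piLe

theorem v27pi_rho_pow (h : V27dpDeg K ρ) {x : B} (hx0 : x ≠ 0) (r : ℕ) :
    ρ (x ^ r) = r * ρ x := by
  induction r with
  | zero => rw [pow_zero, h.one, zero_mul]
  | succ r ih =>
    rw [pow_succ, h.mul _ _ (pow_ne_zero r hx0) hx0, ih]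
    ring

/-- The ring of functions regular near infinity. -/
def v27piLam (h : V27dpDeg K ρ) (x : B) (hx0 : x ≠ 0) : Subring M where
  carrier := {f | ∃ (b : B) (r : ℕ), V27piLe ρ b (ρ x * r) ∧
    f = algebraMap B M b / (algebraMap B M x) ^ r}
  zero_mem' := ⟨0, 0, V27piLe.zero _, by simp⟩
  one_mem' := ⟨1, 0, Or.inr (by rw [h.one]; exact Nat.zero_le _), by simp⟩
  add_mem' := by
    rintro f f' ⟨b, r, hb, rfl⟩ ⟨b', r', hb', rfl⟩
    have hxM : algebraMap B M x ≠ 0 := fun h0 =>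
      hx0 ((IsFractionRing.to_map_eq_zero_iff (K := M)).mp h0)
    refine ⟨b * x ^ r' + b' * x ^ r, r + r', ?_, ?_⟩
    · have hxr : ∀ s : ℕ, V27piLe ρ (x ^ s) (ρ x * s) := fun s =>
        Or.inr (by rw [v27pi_rho_pow h hx0, mul_comm])
      refine V27piLe.add h ?_ ?_
      · rw [mul_add]; exact V27piLe.mul h hb (hxr r')
      · rw [mul_add, add_comm]; exact V27piLe.mul h hb' (hxr r)
    · rw [map_add, map_mul, map_mul, map_pow, map_pow, pow_add]
      field_simp
  neg_mem' := by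
    rintro f ⟨b, r, hb, rfl⟩
    exact ⟨-b, r, V27piLe.neg h hb, by rw [map_neg, neg_div]⟩
  mul_mem' := by
    rintro f f' ⟨b, r, hb, rfl⟩ ⟨b', r', hb', rfl⟩
    refine ⟨b * b', r + r', ?_, ?_⟩
    · rw [mul_add]; exact V27piLe.mul h hb hb'
    · rw [map_mul, pow_add, div_mul_div_comm]

theorem v27pi_mem_lam (h : V27dpDeg K ρ) (x : B) (hx0 : x ≠ 0) {f : M} :
    f ∈ v27piLam M h x hx0 ↔ ∃ (b : B) (r : ℕ), V27piLe ρ b (ρ x * r) ∧
      f = algebraMap B M b / (algebraMap B M x) ^ r := Iff.rfl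

variable (h : V27dpDeg K ρ) (x : B) (hx0 : x ≠ 0)

/-- (hΛK) -/
theorem v27pi_lam_algebraMap (c : K) : algebraMap K M c ∈ v27piLam M h x hx0 := by
  refine ⟨algebraMap K B c, 0, ?_, ?_⟩
  · by_cases hc : c = 0
    · left; rw [hc, map_zero]
    · right; rw [h.const c hc]; exact Nat.zero_le _
  · rw [pow_zero, div_one, ← IsScalarTower.algebraMap_apply]

/-- `1/x ∈ Λ` -/
theorem v27pi_lam_inv_x : (algebraMap B M x)⁻¹ ∈ v27piLam M h x hx0 :=
  ⟨1, 1, Or.inr (by rw [h.one]; exact Nat.zero_le _), by rw [map_one, pow_one, one_div]⟩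

/-- (hres) -/
theorem v27pi_lam_res (f : M) (hf : v27dpVal M h f ≤ 1) :
    ∃ c : K, v27dpVal M h (f - algebraMap K M c) < 1 :=
  v27dp_residue M h f ((v27dp_mem_sub M h).mpr hf)

/-- (hrad) with `n = ρ x`. -/
theorem v27pi_lam_rad (β : M) (hβ : β ∈ v27piLam M h x hx0)
    (hw : v27dpVal M h β < 1) :
    ∃ n : ℕ, ∃ γ ∈ v27piLam M h x hx0, β ^ n = (algebraMap B M x)⁻¹ * γ := by
  obtain ⟨b, r, hb, rfl⟩ := hβ
  have hxM : algebraMap B M x ≠ 0 := fun h0 =>
    hx0 ((IsFractionRing.to_map_eq_zero_iff (K := M)).mp h0)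
  by_cases hb0 : b = 0
  · refine ⟨1, 0, Subring.zero_mem _, ?_⟩
    rw [hb0, map_zero, zero_div, pow_one, mul_zero]
  have hbr : ρ b < ρ x * r := by
    have hxr : x ^ r ≠ 0 := pow_ne_zero r hx0
    rw [← map_pow, v27dpVal_div M h hb0 hxr, ← exp_zero, exp_lt_exp, v27pi_rho_pow h hx0] at hw
    have : (ρ b : ℤ) < ((r * ρ x : ℕ) : ℤ) := by linarith
    rw [mul_comm]
    exact_mod_cast this
  refine ⟨ρ x, algebraMap B M (x * b ^ ρ x) / (algebraMap B M x) ^ (ρ x * r), ?_, ?_⟩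
  · refine ⟨x * b ^ ρ x, ρ x * r, Or.inr ?_, rfl⟩
    rw [h.mul _ _ hx0 (pow_ne_zero _ hb0), v27pi_rho_pow h hb0]
    -- ρ x + ρ x * ρ b ≤ ρ x * (ρ x * r)
    have h1 : ρ b + 1 ≤ ρ x * r := hbr
    calc ρ x + ρ x * ρ b = ρ x * (ρ b + 1) := by ring
      _ ≤ ρ x * (ρ x * r) := Nat.mul_le_mul_left _ h1
  · rw [div_pow, ← pow_mul, map_mul, map_pow, mul_comm r (ρ x)]
    field_simp

/-- (hfrac), given cofactors making every pole order divisible by `ρ x`. -/
theorem v27pi_lam_frac (hcof : ∀ n : ℕ, ∃ c : B, c ≠ 0 ∧ ρ x ∣ n + ρ c) (f : M)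
    (hf : v27dpVal M h f ≤ 1) :
    ∃ α ∈ v27piLam M h x hx0, ∃ β ∈ v27piLam M h x hx0,
      v27dpVal M h β = 1 ∧ f * β = α := by
  have hxM : algebraMap B M x ≠ 0 := fun h0 =>
    hx0 ((IsFractionRing.to_map_eq_zero_iff (K := M)).mp h0)
  by_cases hf0 : f = 0
  · exact ⟨0, Subring.zero_mem _, 1, Subring.one_mem _, map_one _, by rw [hf0, zero_mul]⟩
  obtain ⟨a, b, ha, hb, rfl⟩ := v27dp_exists_div (B := B) M f hf0
  have hab : ρ a ≤ ρ b := by
    rw [v27dpVal_div M h ha hb, ← exp_zero, exp_le_exp] at hf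
    have : (ρ a : ℤ) ≤ ρ b := by linarith
    exact_mod_cast this
  obtain ⟨c, hc, r, hr⟩ := hcof (ρ b)
  have hbM : algebraMap B M b ≠ 0 := fun h0 =>
    hb ((IsFractionRing.to_map_eq_zero_iff (K := M)).mp h0)
  refine ⟨algebraMap B M (a * c) / (algebraMap B M x) ^ r, ⟨a * c, r, Or.inr ?_, rfl⟩,
    algebraMap B M (b * c) / (algebraMap B M x) ^ r, ⟨b * c, r, Or.inr ?_, rfl⟩, ?_, ?_⟩
  · rw [h.mul a c ha hc, ← hr]
    exact Nat.add_le_add_right hab _
  · rw [h.mul b c hb hc, ← hr]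
  · have hxr : x ^ r ≠ 0 := pow_ne_zero r hx0
    rw [← map_pow, v27dpVal_div M h (mul_ne_zero hb hc) hxr, h.mul b c hb hc,
      v27pi_rho_pow h hx0, ← exp_zero]
    congr 1
    have : ((ρ b + ρ c : ℕ) : ℤ) = ((ρ x * r : ℕ) : ℤ) := by rw [hr]
    push_cast at this ⊢
    linarith
  · rw [map_mul, map_mul]
    field_simp

/-- (hint), given that `Λ` is a finitely generated module over `K[1/x]`. -/
theorem v27pi_lam_int (s : Set M) (hfin : s.Finite)
    (hs : ∀ y ∈ s, y ∈ v27piLam M h x hx0)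
    (hgen : ∀ y ∈ v27piLam M h x hx0,
      y ∈ Submodule.span ↥(Algebra.adjoin K {(algebraMap B M x)⁻¹}) s)
    (y : M) (hy : y ∈ v27piLam M h x hx0) :
    IsIntegral ↥(Algebra.adjoin K {(algebraMap B M x)⁻¹}) y := by
  set R := Algebra.adjoin K {(algebraMap B M x)⁻¹} with hR
  -- `R ⊆ Λ`
  have hRΛ : ∀ a : R, (a : M) ∈ v27piLam M h x hx0 := by
    intro a
    have hle : R ≤ { (v27piLam M h x hx0) with
        algebraMap_mem' := v27pi_lam_algebraMap M h x hx0 } :=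
      Algebra.adjoin_le (Set.singleton_subset_iff.mpr (v27pi_lam_inv_x M h x hx0))
    exact hle a.2
  let S : Subalgebra R M :=
    { (v27piLam M h x hx0) with
      algebraMap_mem' := fun a => hRΛ a }
  have hS : S.toSubmodule = Submodule.span R s := by
    apply le_antisymm
    · intro z hz
      exact hgen z hz
    · rw [Submodule.span_le]
      intro z hz
      exact hs z hz
  have hfg : S.toSubmodule.FG := hS ▸ Submodule.fg_span hfin
  exact IsIntegral.of_mem_of_fg S hfg y hy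

end Fermat.Agent.V
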