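/-
Program V (S27), half B, leaf (C3b) INSTANCE, stage 2b: the places of `Frac (V27pB T)`.
On helper26's `V/Pres/{Defs,Ring,Ord}.lean` + helper4's `V/Pres/DegPlace.lean`.
Owner: helper15.  Prefix `v27pi_`.
-/
import Mathlib
import Fermat.Agent.V.Pres.Ord
import Fermat.Agent.V.Pts.Inst.Points
import Fermat.Agent.V.Pts.Inst.Lam

set_option autoImplicit false
set_option linter.style.haveILetI false
set_option linter.unusedSectionVars false

noncomputable section

namespace Fermat.Agent.V

open AlgebraicCurve WithZero Polynomial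

/-- `p(z) / z^m ∈ K[1/z]` for `deg p ≤ m`. -/
theorem v27pi_aeval_div_mem {K M : Type*} [Field K] [Field M] [Algebra K M] (z : M) (hz : z ≠ 0) (p : K[X]) (m : ℕ) (hp : p.natDegree ≤ m) :
    aeval z p / z ^ m ∈ Algebra.adjoin K {z⁻¹} := by
  have hpow : ∀ i : ℕ, i ≤ m → z ^ i / z ^ m = (z⁻¹) ^ (m - i) := by
    intro i him
    rw [inv_pow, div_eq_iff (pow_ne_zero m hz), inv_mul_eq_div, eq_div_iff (pow_ne_zero _ hz),
      ← pow_add, Nat.add_sub_cancel' him]
  have hsum : aeval z p / z ^ m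
      = ∑ i ∈ Finset.range (p.natDegree + 1), p.coeff i • (z⁻¹) ^ (m - i) := by
    rw [aeval_eq_sum_range, Finset.sum_div]
    refine Finset.sum_congr rfl fun i hi => ?_
    have him : i ≤ m := (Nat.lt_succ_iff.mp (Finset.mem_range.mp hi)).trans hp
    rw [smul_div_assoc, hpow i him]
  rw [hsum]
  refine Subalgebra.sum_mem _ fun i _ => ?_
  exact Subalgebra.smul_mem _ (Subalgebra.pow_mem _ (Algebra.self_mem_adjoin_singleton K z⁻¹) _) _


variable {K : Type*} [Field K] {δ : V27pShape} {T : V27pTable K δ}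

/-! ### pole orders of the generators -/

theorem v27pi_e_ne_zero (j : ZMod δ.N) : V27pB.e (T := T) j ≠ 0 := by
  intro h
  have := congrFun h j
  simp [V27pB.e_apply] at this

theorem v27pi_x_ne_zero : V27pB.x (T := T) ≠ 0 := by
  intro h
  have := congrFun h (0 : ZMod δ.N)
  simp [V27pB.x, V27pB.algebraMap_poly_apply] at this

/-- helper26's pole order is a degree function in helper4's sense. -/
theorem v27pi_deg : V27dpDeg K (v27pOrd (T := T)) where
  mul := fun _ _ ha hb => v27pOrd_mul ha hb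
  add := fun a b _ _ _ => v27pOrd_add_le a b
  const := fun c _ => v27pOrd_algebraMap c
  one_dim := fun _ _ ha hb h => v27pOrd_hone ha hb h
  gcd := v27pOrd_hgcd

/-- cofactors: every residue class of pole orders mod `N` is represented by a basis vector. -/
theorem v27pi_cof (n : ℕ) : ∃ c : V27pB T, c ≠ 0 ∧ v27pOrd (V27pB.x (T := T)) ∣ n + v27pOrd c := by
  refine ⟨V27pB.e (-(n : ZMod δ.N)), v27pi_e_ne_zero _, ?_⟩
  rw [v27pOrd_x, v27pOrd_e, ← ZMod.natCast_eq_zero_iff, Nat.cast_add, δ.d_cong]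
  ring

/-! ### finite generation of `Λ` over `K[1/x]` -/

section Gen

variable (M : Type*) [Field M] [Algebra (V27pB T) M] [IsFractionRing (V27pB T) M] [Algebra K M]
  [IsScalarTower K (V27pB T) M]

/-- the ceiling `⌈d j / N⌉` -/
def v27piCeil (δ : V27pShape) (j : ZMod δ.N) : ℕ := (δ.d j + δ.N - 1) / δ.N

theorem v27piCeil_le_iff (j : ZMod δ.N) (q : ℕ) : v27piCeil δ j ≤ q ↔ δ.d j ≤ δ.N * q := by
  unfold v27piCeil
  have hN := δ.hN
  rw [← Nat.lt_succ_iff, Nat.div_lt_iff_lt_mul hN, Nat.succ_mul]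
  constructor
  · intro h
    rw [mul_comm]
    omega
  · intro h
    rw [mul_comm]
    omega

theorem v27pi_le_ceil (j : ZMod δ.N) : δ.d j ≤ δ.N * v27piCeil δ j :=
  (v27piCeil_le_iff j _).mp le_rfl

/-- the generators `y_j = e_j / x^⌈d j/N⌉` of `Λ` -/
def v27piY (j : ZMod δ.N) : M :=
  algebraMap (V27pB T) M (V27pB.e j) / (algebraMap (V27pB T) M V27pB.x) ^ v27piCeil δ j

variable (hdeg : V27dpDeg K (v27pOrd (T := T)))

theorem v27piY_mem (j : ZMod δ.N) :
    v27piY (T := T) M j ∈ v27piLam M hdeg V27pB.x v27pi_x_ne_zero := by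
  refine ⟨V27pB.e j, v27piCeil δ j, Or.inr ?_, rfl⟩
  rw [v27pOrd_e, v27pOrd_x]
  exact v27pi_le_ceil j

theorem v27pi_algebraMap_eq_sum (b : V27pB T) :
    algebraMap (V27pB T) M b
      = ∑ j, aeval (algebraMap (V27pB T) M V27pB.x) (b j)
          * algebraMap (V27pB T) M (V27pB.e j) := by
  conv_lhs => rw [V27pB.eq_sum_smul_e b]
  rw [map_sum]
  apply Finset.sum_congr rfl
  intro j _
  rw [Algebra.smul_def, map_mul, v27pi_algebraMap_poly_eq_aeval, ← aeval_algebraMap_apply]

theorem v27pi_lam_gen (y : M) (hy : y ∈ v27piLam M hdeg V27pB.x v27pi_x_ne_zero) :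
    y ∈ Submodule.span ↥(Algebra.adjoin K {(algebraMap (V27pB T) M V27pB.x)⁻¹})
      (Set.range (v27piY (T := T) M)) := by
  obtain ⟨b, r, hb, rfl⟩ := hy
  set z := algebraMap (V27pB T) M V27pB.x with hz
  have hz0 : z ≠ 0 := fun h0 =>
    v27pi_x_ne_zero ((IsFractionRing.to_map_eq_zero_iff (K := M)).mp h0)
  set R := Algebra.adjoin K {z⁻¹} with hR
  rw [v27pi_algebraMap_eq_sum M b, Finset.sum_div]
  refine Submodule.sum_mem _ fun j _ => ?_
  by_cases hbj : b j = 0
  · rw [hbj, map_zero, zero_mul, zero_div]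
    exact Submodule.zero_mem _
  have hb0 : b ≠ 0 := fun h0 => hbj (by rw [h0]; rfl)
  have hle : V27pLe b (δ.N * r) := by
    have := hb.resolve_left hb0
    rw [v27pOrd_x] at this
    exact (v27pOrd_le_iff b _).mp this
  have h1 : δ.N * (b j).natDegree + δ.d j ≤ δ.N * r := hle.natDegree_le j hbj
  have h2 : (b j).natDegree ≤ r := by
    have : δ.N * (b j).natDegree ≤ δ.N * r := by omega
    exact Nat.le_of_mul_le_mul_left this δ.hN
  have h3 : v27piCeil δ j ≤ r - (b j).natDegree := by
    rw [v27piCeil_le_iff, Nat.mul_sub]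
    omega
  have h4 : (b j).natDegree ≤ r - v27piCeil δ j := by omega
  have h5 : v27piCeil δ j ≤ r := by omega
  have hc : aeval z (b j) / z ^ (r - v27piCeil δ j) ∈ R :=
    v27pi_aeval_div_mem z hz0 (b j) _ h4
  have : aeval z (b j) * algebraMap (V27pB T) M (V27pB.e j) / z ^ r
      = (⟨_, hc⟩ : R) • v27piY (T := T) M j := by
    rw [Subalgebra.smul_def, smul_eq_mul]
    unfold v27piY
    rw [← hz, div_mul_div_comm, ← pow_add, Nat.sub_add_cancel h5]
  rw [this]
  exact Submodule.smul_mem _ _ (Submodule.subset_span ⟨j, rfl⟩)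

/-- **(hint)** `Λ` is integral over `K[1/x]`. -/
theorem v27pi_lam_isIntegral (y : M) (hy : y ∈ v27piLam M hdeg V27pB.x v27pi_x_ne_zero) :
    IsIntegral ↥(Algebra.adjoin K {(algebraMap (V27pB T) M V27pB.x)⁻¹}) y :=
  v27pi_lam_int M hdeg V27pB.x v27pi_x_ne_zero (Set.range (v27piY (T := T) M))
    (Set.finite_range _)
    (fun y hy => by
      obtain ⟨j, rfl⟩ := hy
      exact v27piY_mem M hdeg j)
    (v27pi_lam_gen M hdeg) y hy

/-! ### the unique place at infinity and the classification -/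

/-- **The place at infinity is the only place of `M` not containing `x`.** -/
theorem v27pi_huniq :
    ∀ v : Place K M, algebraMap (V27pB T) M V27pB.x ∉ v.toValuationSubring →
      v = v27dpPlace M hdeg :=
  v27pt_huniq_of_inf (v27dpVal M hdeg) (v27dpPlace M hdeg) rfl V27pB.x
    (v27piLam M hdeg V27pB.x v27pi_x_ne_zero)
    (v27pi_lam_algebraMap M hdeg V27pB.x v27pi_x_ne_zero)
    (v27pi_lam_isIntegral M hdeg)
    (v27pi_lam_frac M hdeg V27pB.x v27pi_x_ne_zero v27pi_cof)
    (v27pi_lam_rad M hdeg V27pB.x v27pi_x_ne_zero)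
    (fun β _ hβ => v27pi_lam_res M hdeg β hβ)

/-- **`hcover` of leaf (C3c)**: every place other than the place at infinity contains `B`. -/
theorem v27pi_hcover :
    ∀ v : Place K M, v ≠ v27dpPlace M hdeg →
      ∀ b : V27pB T, algebraMap (V27pB T) M b ∈ v.toValuationSubring := by
  intro v hv b
  have hxv : algebraMap (V27pB T) M V27pB.x ∈ v.toValuationSubring := by
    by_contra h
    exact hv (v27pi_huniq M hdeg v h)
  exact v27pt_mem_of_isIntegral_poly V27pB.x v27pi_algebraMap_poly_eq_aeval v hxv b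

/-- **CLASSIFICATION**: a place of `Frac (V27pB T)` is the place at infinity or a point. -/
theorem v27pi_place_cases [IsAlgClosed K] [IsDedekindDomain (V27pB T)] :
    ∀ v : Place K M, v = v27dpPlace M hdeg ∨
      ∃ q : V27pB T →ₐ[K] K, v = v27ptPlace M v27pi_not_isField q := by
  intro v
  by_cases hv : v = v27dpPlace M hdeg
  · exact Or.inl hv
  · exact Or.inr (v27pt_exists_place_eq v27pi_not_isField v (v27pi_hcover M hdeg v hv))

/-- The place at infinity is not a point. -/
theorem v27pi_inf_ne_point [IsDedekindDomain (V27pB T)] (q : V27pB T →ₐ[K] K) :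
    v27dpPlace M hdeg ≠ v27ptPlace M v27pi_not_isField q := by
  intro h
  have h1 : algebraMap (V27pB T) M V27pB.x ∈ (v27dpPlace M hdeg).toValuationSubring := by
    rw [h]
    exact v27pt_place_mem v27pi_not_isField q _
  exact v27dp_not_mem_of_pos M hdeg v27pi_x_ne_zero (by rw [v27pOrd_x]; exact δ.hN) h1

end Gen

/-! ### closed forms (with `v27pi_deg`) -/

section Closed

variable (T) (M : Type*) [Field M] [Algebra (V27pB T) M] [IsFractionRing (V27pB T) M] [Algebra K M]
  [IsScalarTower K (V27pB T) M]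

/-- The place at infinity of `M = Frac (V27pB T)`. -/
def v27piInf : Place K M := v27dpPlace M (v27pi_deg (T := T))

theorem v27piInf_deg : (v27piInf T M).deg = 1 := v27dp_deg M v27pi_deg

theorem v27piInf_ord_algebraMap {b : V27pB T} (hb : b ≠ 0) :
    (v27piInf T M).ord (algebraMap (V27pB T) M b) = -(v27pOrd b : ℤ) :=
  v27dp_ord_algebraMap M v27pi_deg hb

/-- `huniq`, closed. -/
theorem v27piInf_huniq :
    ∀ v : Place K M, algebraMap (V27pB T) M V27pB.x ∉ v.toValuationSubring → v = v27piInf T M :=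
  v27pi_huniq M v27pi_deg

/-- **helper7's `hcover`, closed.** -/
theorem v27piInf_hcover :
    ∀ v : Place K M, v ≠ v27piInf T M →
      ∀ b : V27pB T, algebraMap (V27pB T) M b ∈ v.toValuationSubring :=
  v27pi_hcover M v27pi_deg

/-- **CLASSIFICATION, closed**: every place of `M` is the place at infinity or a point. -/
theorem v27piInf_place_cases [IsAlgClosed K] [IsDedekindDomain (V27pB T)] :
    ∀ v : Place K M, v = v27piInf T M ∨
      ∃ q : V27pB T →ₐ[K] K, v = v27ptPlace M v27pi_not_isField q :=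
  v27pi_place_cases M v27pi_deg

theorem v27piInf_ne_point [IsDedekindDomain (V27pB T)] (q : V27pB T →ₐ[K] K) :
    v27piInf T M ≠ v27ptPlace M v27pi_not_isField q :=
  v27pi_inf_ne_point M v27pi_deg q

/-- helper7's `hfin`. -/
theorem v27pi_hfin [IsAlgClosed K] :
    ∀ P : Ideal (V27pB T), P.IsMaximal → Module.Finite K (V27pB T ⧸ P) :=
  fun P hP => v27pt_finite_quotient_of_isMaximal P hP

end Closed

end Fermat.Agent.V
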